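import Fermat.Agent.HyperellipticWeil.Monics
import Mathlib.RingTheory.UniqueFactorizationDomain.Multiplicity
import Mathlib.RingTheory.Polynomial.UniqueFactorization

/-!
# Newton's identities for the L-polynomial

`d c_d = ∑_k S_k c_(d-k)`, and `S_k = ∑_{x ∈ K} χ_K (f x)` for every extension `K / F` of
degree `k`.
-/

set_option autoImplicit false

noncomputable section

namespace FA.HyperellipticWeil

open Polynomial Finset UniqueFactorizationMonoid
open scoped Classical

variable {F : Type*} [Field F] [Fintype F] [DecidableEq F]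

variable (F) in
/-- The monic irreducibles of degree `≤ D`. -/
def irr (D : ℕ) : Finset F[X] := ((Icc 1 D).biUnion (monics F)).filter Irreducible

theorem mem_irr {D : ℕ} {P : F[X]} :
    P ∈ irr F D ↔ P.Monic ∧ Irreducible P ∧ P.natDegree ≤ D := by
  simp only [irr, mem_filter, mem_biUnion, mem_Icc, mem_monics]
  constructor
  · rintro ⟨⟨i, hi, hm, rfl⟩, hirr⟩
    exact ⟨hm, hirr, hi.2⟩
  · rintro ⟨hm, hirr, hd⟩
    exact ⟨⟨_, ⟨hirr.natDegree_pos, hd⟩, hm, rfl⟩, hirr⟩

/-- The sum over the points in the extension of degree `k`, in terms of the irreducibles. -/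
def powSum (f : F[X]) (k : ℕ) : ℤ :=
  ∑ P ∈ (irr F k).filter (fun P => P.natDegree ∣ k),
    (P.natDegree : ℤ) * lam f P ^ (k / P.natDegree)

theorem natDegree_eq_sum_dvd {g : F[X]} {d : ℕ} (hg : g.Monic) (hd : g.natDegree = d) :
    (d : ℤ) = ∑ P ∈ irr F d, ∑ j ∈ Icc 1 d, if P ^ j ∣ g then (P.natDegree : ℤ) else 0 := by
  obtain ⟨s, hs⟩ : ∃ s, s = normalizedFactors g := ⟨_, rfl⟩
  have hprod : s.prod = g := by
    rw [hs, prod_normalizedFactors_eq hg.ne_zero, hg.normalize_eq_self]
  have hirr : ∀ P ∈ s, Irreducible P := fun P h => irreducible_of_normalized_factor P (hs ▸ h)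
  have hdeg : d = (s.map natDegree).sum := by
    rw [← hd, ← hprod, natDegree_multiset_prod _ fun h => (hirr 0 h).ne_zero rfl]
  have hcount : ∀ P ∈ s, s.count P * P.natDegree ≤ d := fun P hP => by
    rw [hdeg, sum_multiset_map_count, ← smul_eq_mul]
    exact single_le_sum (f := fun x => s.count x • x.natDegree) (fun x _ => Nat.zero_le _)
      (Multiset.mem_toFinset.2 hP)
  have hmonic : ∀ P ∈ s, P.Monic := fun P hP => by
    rw [← normalize_normalized_factor P (hs ▸ hP)]
    exact monic_normalize (hirr P hP).ne_zero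
  have hsub : s.toFinset ⊆ irr F d := fun P hP => by
    rw [Multiset.mem_toFinset] at hP
    have h1 : 1 ≤ s.count P := Multiset.one_le_count_iff_mem.2 hP
    exact mem_irr.2 ⟨hmonic P hP, hirr P hP, le_trans (Nat.le_mul_of_pos_left _ h1) (hcount P hP)⟩
  conv_lhs => rw [hdeg, sum_multiset_map_count]
  rw [sum_subset hsub fun P _ hP => by
      rw [Multiset.mem_toFinset, ← Multiset.count_eq_zero] at hP
      rw [hP, zero_smul]]
  push_cast
  refine sum_congr rfl fun P hP => ?_
  rw [mem_irr] at hP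
  have hj : ∀ j, P ^ j ∣ g ↔ j ≤ s.count P := fun j => by
    rw [pow_dvd_iff_le_emultiplicity, le_emultiplicity_iff_replicate_le_normalizedFactors hP.2.1
      hg.ne_zero, hP.1.normalize_eq_self, ← Multiset.le_count_iff_replicate_le, hs]
  have hle : s.count P ≤ d := by
    by_cases h : P ∈ s
    · exact (Nat.le_mul_of_pos_right _ hP.2.1.natDegree_pos).trans (hcount P h)
    · rw [Multiset.count_eq_zero.2 h]
      exact Nat.zero_le _
  simp only [hj]
  rw [sum_ite, sum_const_zero, add_zero, sum_const,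
    show (Icc 1 d).filter (fun j => j ≤ s.count P) = Icc 1 (s.count P) by
      ext j; simp only [mem_filter, mem_Icc]; omega,
    Nat.card_Icc, Nat.add_sub_cancel, nsmul_eq_mul]
  push_cast
  rfl

theorem sum_lam_dvd (f : F[X]) {P : F[X]} (hP : P.Monic) (j d : ℕ) :
    ∑ g ∈ monics F d, (if P ^ j ∣ g then lam f g else 0) =
      if j * P.natDegree ≤ d then lam f P ^ j * lSum f (d - j * P.natDegree) else 0 := by
  split_ifs with h
  · rw [lSum, mul_sum, ← sum_filter]
    refine (sum_bij' (fun b _ => P ^ j * b) (fun g _ => g /ₘ P ^ j) ?_ ?_ ?_ ?_ ?_).symm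
    · intro b hb
      rw [mem_monics] at hb
      refine mem_filter.2 ⟨mem_monics.2 ⟨(hP.pow j).mul hb.1, ?_⟩, dvd_mul_right _ _⟩
      rw [(hP.pow j).natDegree_mul hb.1, hP.natDegree_pow, hb.2]
      omega
    · intro g hg
      rw [mem_filter, mem_monics] at hg
      obtain ⟨⟨hgm, rfl⟩, b, rfl⟩ := hg
      have hb : b.Monic := (hP.pow j).of_mul_monic_left hgm
      rw [mul_divByMonic_cancel_left _ (hP.pow j), mem_monics, (hP.pow j).natDegree_mul hb,
        hP.natDegree_pow, Nat.add_sub_cancel_left]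
      exact ⟨hb, rfl⟩
    · exact fun b _ => mul_divByMonic_cancel_left _ (hP.pow j)
    · intro g hg
      obtain ⟨b, rfl⟩ := (mem_filter.1 hg).2
      rw [mul_divByMonic_cancel_left _ (hP.pow j)]
    · intro b hb
      rw [lam_mul f (hP.pow j) (mem_monics.1 hb).1, lam_pow f hP]
  · refine sum_eq_zero fun g hg => if_neg fun hd => h ?_
    rw [mem_monics] at hg
    have := natDegree_le_of_dvd hd hg.1.ne_zero
    rwa [hP.natDegree_pow, hg.2] at this

/-- **Newton's identities.** -/
theorem newton_identity (f : F[X]) (d : ℕ) :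
    (d : ℤ) * lSum f d = ∑ k ∈ Icc 1 d, powSum f k * lSum f (d - k) := by
  have h1 : (d : ℤ) * lSum f d = ∑ P ∈ irr F d, ∑ j ∈ Icc 1 d,
      if j * P.natDegree ≤ d then
        (P.natDegree : ℤ) * (lam f P ^ j * lSum f (d - j * P.natDegree)) else 0 := by
    rw [lSum, mul_sum, sum_congr rfl fun g hg => by
      rw [natDegree_eq_sum_dvd (mem_monics.1 hg).1 (mem_monics.1 hg).2, sum_mul], sum_comm]
    refine sum_congr rfl fun P hP => ?_
    simp only [sum_mul]
    rw [sum_comm]
    refine sum_congr rfl fun j _ => ?_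
    rw [← mul_ite_zero, ← sum_lam_dvd f (mem_irr.1 hP).1, mul_sum]
    exact sum_congr rfl fun g _ => by split_ifs <;> simp
  rw [h1]
  simp only [powSum, sum_mul]
  rw [← sum_product', ← sum_filter, sum_sigma']
  refine sum_nbij' (fun x => ⟨x.2 * x.1.natDegree, x.1⟩) (fun y => (y.2, y.1 / y.2.natDegree))
    ?_ ?_ ?_ ?_ ?_
  · intro x hx
    simp only [mem_filter, mem_product, mem_Icc, mem_sigma] at hx ⊢
    obtain ⟨⟨hP, hj, -⟩, hle⟩ := hx
    rw [mem_irr] at hP
    have hpos : 1 ≤ x.2 * x.1.natDegree := Nat.mul_pos hj hP.2.1.natDegree_pos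
    exact ⟨⟨hpos, hle⟩, mem_irr.2 ⟨hP.1, hP.2.1, Nat.le_mul_of_pos_left _ hj⟩, dvd_mul_left _ _⟩
  · intro y hy
    simp only [mem_filter, mem_product, mem_Icc, mem_sigma] at hy ⊢
    obtain ⟨⟨hk, hkd⟩, hP, hdvd⟩ := hy
    rw [mem_irr] at hP
    refine ⟨⟨mem_irr.2 ⟨hP.1, hP.2.1, hP.2.2.trans hkd⟩,
      Nat.div_pos hP.2.2 hP.2.1.natDegree_pos, (Nat.div_le_self _ _).trans hkd⟩, ?_⟩
    rwa [Nat.div_mul_cancel hdvd]
  · intro x hx
    simp only [mem_filter, mem_product] at hx
    simp [Nat.mul_div_cancel _ (mem_irr.1 hx.1.1).2.1.natDegree_pos]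
  · intro y hy
    simp only [mem_filter, mem_sigma] at hy
    obtain ⟨k, P⟩ := y
    simp [Nat.div_mul_cancel hy.2.2]
  · intro x hx
    simp only [mem_filter, mem_product] at hx
    rw [Nat.mul_div_cancel _ (mem_irr.1 hx.1.1).2.1.natDegree_pos]
    ring

section points

variable {K : Type*} [Field K] [Fintype K] [DecidableEq K] [Algebra F K]

theorem quadraticChar_norm (hF : ringChar F ≠ 2) (x : K) :
    quadraticChar K x = quadraticChar F (Algebra.norm F x) := by
  have hK : ringChar K ≠ 2 := fun h => hF (by rw [Algebra.ringChar_eq F K, h])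
  rcases eq_or_ne x 0 with rfl | hx
  · rw [Algebra.norm_zero, quadraticChar_zero, quadraticChar_zero]
  have hn : Algebra.norm F x ≠ 0 := Algebra.norm_ne_zero_iff.2 hx
  have h1 : quadraticChar K x ∈ ({0, 1, -1} : Set ℤ) := by
    rcases quadraticChar_dichotomy hx with h | h <;> simp [h]
  have h2 : quadraticChar F (Algebra.norm F x) ∈ ({0, 1, -1} : Set ℤ) := by
    rcases quadraticChar_dichotomy hn with h | h <;> simp [h]
  refine Int.cast_injOn_of_ringChar_ne_two hK h1 h2 ?_
  rw [quadraticChar_eq_pow_of_char_ne_two' hK, ← map_intCast (algebraMap F K),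
    quadraticChar_eq_pow_of_char_ne_two' hF, map_pow, FiniteField.algebraMap_norm_eq_pow,
    ← pow_mul, Nat.card_eq_fintype_card, Nat.card_eq_fintype_card]
  congr 1
  obtain ⟨n, hn⟩ : ∃ n, Fintype.card K = Fintype.card F ^ n := ⟨_, Module.card_eq_pow_finrank⟩
  have hqo := FiniteField.odd_card_of_char_ne_two hF
  have hQo := FiniteField.odd_card_of_char_ne_two hK
  have hdvd : Fintype.card F - 1 ∣ Fintype.card K - 1 := hn ▸ Nat.sub_one_dvd_pow_sub_one _ n
  have h2 := Nat.div_mul_cancel hdvd
  rw [show Fintype.card F - 1 = 2 * (Fintype.card F / 2) by omega] at h2 ⊢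
  rw [← mul_left_inj' (show (2 : ℕ) ≠ 0 by omega), mul_assoc, mul_comm (Fintype.card F / 2) 2, h2]
  omega

theorem quadraticChar_aeval_eq_lam (hF : ringChar F ≠ 2) (f : F[X]) (x : K) :
    quadraticChar K (aeval x f) =
      lam f (minpoly F x) ^ (Module.finrank F K / (minpoly F x).natDegree) := by
  have hint : IsIntegral F x := Algebra.IsIntegral.isIntegral x
  obtain ⟨P, hPdef⟩ : ∃ P, P = minpoly F x := ⟨_, rfl⟩
  rw [← hPdef]
  have hP : P.Monic := hPdef ▸ minpoly.monic hint
  have hirr : Irreducible P := hPdef ▸ minpoly.irreducible hint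
  have := Fact.mk hirr
  have h0 : P.eval₂ (Algebra.ofId F K : F →+* K) x = 0 := hPdef ▸ minpoly.aeval F x
  let φ : AdjoinRoot P →ₐ[F] K := AdjoinRoot.liftAlgHom P (Algebra.ofId F K) x h0
  let _ : Algebra (AdjoinRoot P) K := φ.toRingHom.toAlgebra
  have : IsScalarTower F (AdjoinRoot P) K := IsScalarTower.of_algebraMap_eq fun r =>
    (φ.commutes r).symm
  have : Module.Finite F (AdjoinRoot P) := (AdjoinRoot.powerBasis hirr.ne_zero).finite
  have : Module.Finite (AdjoinRoot P) K := Module.Finite.right F _ K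
  have hfin : Module.finrank F (AdjoinRoot P) = P.natDegree :=
    finrank_quotient_span_eq_natDegree
  have hdiv : Module.finrank F K / P.natDegree = Module.finrank (AdjoinRoot P) K := by
    rw [← Module.finrank_mul_finrank F (AdjoinRoot P) K, hfin,
      Nat.mul_div_cancel_left _ hirr.natDegree_pos]
  have hφ : algebraMap (AdjoinRoot P) K (AdjoinRoot.mk P f) = aeval x f := by
    rw [← AdjoinRoot.aeval_eq]
    exact (aeval_algHom_apply φ _ f).symm.trans (by simp [φ])
  rw [quadraticChar_norm hF, ← hφ, ← Algebra.norm_norm (S := AdjoinRoot P),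
    Algebra.norm_algebraMap, map_pow, map_pow, ← resultant_eq_norm f hP hirr, hdiv]
  rfl

theorem card_minpoly_fiber {P : F[X]} (hPm : P.Monic) (hirr : Irreducible P)
    (hdvd : P.natDegree ∣ Module.finrank F K) :
    ((univ : Finset K).filter fun x => minpoly F x = P).card = P.natDegree := by
  have hset : (univ : Finset K).filter (fun x => minpoly F x = P) = (P.aroots K).toFinset := by
    ext x
    rw [mem_filter, Multiset.mem_toFinset, mem_aroots]
    refine ⟨fun h => ⟨hirr.ne_zero, h.2 ▸ minpoly.aeval F x⟩, fun h => ⟨mem_univ _, ?_⟩⟩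
    exact (minpoly.eq_of_irreducible_of_monic hirr h.2 hPm).symm
  rw [hset, Multiset.toFinset_card_of_nodup
    (nodup_roots (PerfectField.separable_of_irreducible hirr).map)]
  have := Fact.mk hirr
  have : Module.Finite F (AdjoinRoot P) := (AdjoinRoot.powerBasis hirr.ne_zero).finite
  have : Finite (AdjoinRoot P) := Module.finite_of_finite F
  obtain ⟨φ⟩ := FiniteField.nonempty_algHom_of_finrank_dvd (F := F) (K := AdjoinRoot P) (L := K)
    (by rwa [show Module.finrank F (AdjoinRoot P) = P.natDegree from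
      finrank_quotient_span_eq_natDegree])
  have hroot : aeval (φ (AdjoinRoot.root P)) P = 0 := by
    rw [aeval_algHom_apply, AdjoinRoot.aeval_eq, AdjoinRoot.mk_self, map_zero]
  have hsplit := Normal.splits (inferInstance : Normal F K) (φ (AdjoinRoot.root P))
  rw [← minpoly.eq_of_irreducible_of_monic hirr hroot hPm] at hsplit
  rw [← hsplit.natDegree_eq_card_roots, natDegree_map]

/-- **The point sums.** -/
theorem sum_quadraticChar_eq_powSum (hF : ringChar F ≠ 2) (f : F[X]) :
    ∑ x : K, quadraticChar K (aeval x f) = powSum f (Module.finrank F K) := by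
  have hmaps : ∀ x ∈ (univ : Finset K), minpoly F x ∈
      (irr F (Module.finrank F K)).filter fun P => P.natDegree ∣ Module.finrank F K := fun x _ => by
    have hint : IsIntegral F x := Algebra.IsIntegral.isIntegral x
    exact mem_filter.2 ⟨mem_irr.2 ⟨minpoly.monic hint, minpoly.irreducible hint,
      Nat.le_of_dvd Module.finrank_pos (minpoly.degree_dvd hint)⟩, minpoly.degree_dvd hint⟩
  rw [← sum_fiberwise_of_maps_to hmaps, powSum]
  refine sum_congr rfl fun P hP => ?_
  rw [mem_filter, mem_irr] at hP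
  obtain ⟨⟨hPm, hirr, -⟩, hdvd⟩ := hP
  have hcard := card_minpoly_fiber (K := K) hPm hirr hdvd
  rw [sum_congr rfl fun x hx => by
      rw [quadraticChar_aeval_eq_lam hF f x, (mem_filter.1 hx).2],
    sum_const, hcard, nsmul_eq_mul]

end points

end FA.HyperellipticWeil
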