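import Fermat.Agent.HyperellipticWeil.Stepanov
import Fermat.Agent.HyperellipticWeil.Newton
import Fermat.Agent.DworkRationality.Main
import Mathlib.FieldTheory.Finite.Extension

/-!
# The Riemann hypothesis for the hyperelliptic L-polynomial

The power sums of the reciprocal roots are `O (q ^ (n / 2))` by Stepanov in every extension, so
every root has absolute value `≤ √q`, whence `|∑_x χ (f x)| ≤ (m - 1) √q`.
-/

set_option autoImplicit false

noncomputable section

namespace FA.HyperellipticWeil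

open Polynomial Finset FA.DworkRationality

/-- Power sums bounded by `C r ^ n` force `|α| ≤ r`. -/
theorem norm_le_of_powerSums {s : Multiset ℂ} {C r : ℝ} (hr : 0 < r)
    (h : ∀ n : ℕ, 1 ≤ n → ‖(s.map (· ^ n)).sum‖ ≤ C * r ^ n) {a : ℂ} (ha : a ∈ s) : ‖a‖ ≤ r := by
  classical
  obtain ⟨G, hG⟩ : ∃ G : ℂ[X], G = ∏ b ∈ s.toFinset.erase a, (X - Polynomial.C b) := ⟨_, rfl⟩
  have hGa : G.eval a ≠ 0 := by
    rw [hG, eval_prod]
    refine prod_ne_zero_iff.2 fun b hb => ?_
    simpa [sub_eq_zero] using (mem_erase.1 hb).1.symm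
  have hGb : ∀ b ∈ s.toFinset, b ≠ a → G.eval b = 0 := fun b hb hba => by
    rw [hG, eval_prod]
    exact prod_eq_zero (mem_erase.2 ⟨hba, hb⟩) (by simp)
  obtain ⟨B, hB⟩ : ∃ B, B = C * ∑ l ∈ range (G.natDegree + 1), ‖G.coeff l‖ * r ^ l := ⟨_, rfl⟩
  have key : ∀ n : ℕ, 1 ≤ n → ‖(s.count a : ℂ) * G.eval a‖ * ‖a‖ ^ n ≤ B * r ^ n := by
    intro n hn
    have e : (s.count a : ℂ) * G.eval a * a ^ n =
        ∑ l ∈ range (G.natDegree + 1), G.coeff l * (s.map (· ^ (n + l))).sum := by
      simp only [sum_multiset_map_count, mul_sum]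
      rw [sum_comm]
      rw [sum_eq_single_of_mem a (Multiset.mem_toFinset.2 ha) fun b hb hba => ?_]
      · rw [eval_eq_sum_range, mul_sum, sum_mul]
        exact sum_congr rfl fun l _ => by rw [nsmul_eq_mul, pow_add]; ring
      · calc ∑ l ∈ range (G.natDegree + 1), G.coeff l * (s.count b • b ^ (n + l)) =
              (s.count b : ℂ) * b ^ n * G.eval b := by
              rw [eval_eq_sum_range, mul_sum]
              exact sum_congr rfl fun l _ => by rw [nsmul_eq_mul, pow_add]; ring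
          _ = 0 := by rw [hGb b hb hba, mul_zero]
    rw [← norm_pow, ← norm_mul, e, hB, mul_sum, sum_mul]
    refine (norm_sum_le _ _).trans (sum_le_sum fun l _ => ?_)
    rw [norm_mul]
    refine (mul_le_mul_of_nonneg_left (h _ (by omega)) (norm_nonneg _)).trans (le_of_eq ?_)
    ring
  by_contra hlt
  have hc : 0 < ‖(s.count a : ℂ) * G.eval a‖ :=
    norm_pos_iff.2 (mul_ne_zero (Nat.cast_ne_zero.2 (Multiset.count_pos.2 ha).ne') hGa)
  obtain ⟨n, hn⟩ := pow_unbounded_of_one_lt (B / ‖(s.count a : ℂ) * G.eval a‖)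
    ((one_lt_div hr).2 (not_le.1 hlt))
  have h1 : (‖a‖ / r) ^ n ≤ (‖a‖ / r) ^ (n + 1) :=
    pow_le_pow_right₀ ((one_lt_div hr).2 (not_le.1 hlt)).le (Nat.le_succ n)
  have h2 := hn.trans_le h1
  rw [div_pow, div_lt_div_iff₀ hc (pow_pos hr _)] at h2
  linarith [key (n + 1) (by omega)]

variable {F : Type*} [Field F] [Fintype F] [DecidableEq F]

/-- The L-polynomial. -/
def lPoly (f : F[X]) : ℤ[X] := ∑ i ∈ range f.natDegree, Polynomial.C (lSum f i) * X ^ i

theorem coeff_lPoly (f : F[X]) (i : ℕ) :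
    (lPoly f).coeff i = if i < f.natDegree then lSum f i else 0 := by
  rw [lPoly, finsetSum_coeff]
  simp only [coeff_C_mul_X_pow]
  rw [Finset.sum_ite_eq]
  simp only [mem_range]

variable {f : F[X]}

theorem coeff_lPoly_eq (hF : ringChar F ≠ 2) (hf : f.Monic) (hsq : Squarefree f)
    (hm : 1 ≤ f.natDegree) (i : ℕ) : (lPoly f).coeff i = lSum f i := by
  rw [coeff_lPoly]
  split_ifs with h
  · rfl
  · exact (lSum_eq_zero hF hf hsq hm (not_lt.1 h)).symm

/-- The reciprocal roots. -/
def lRoots (f : F[X]) : Multiset ℂ := ((lPoly f).reverse.map (Int.castRingHom ℂ)).roots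

theorem card_lRoots_le (f : F[X]) : Multiset.card (lRoots f) ≤ f.natDegree - 1 := by
  refine (card_roots' _).trans (natDegree_map_le.trans ((reverse_natDegree_le _).trans ?_))
  refine natDegree_sum_le_of_forall_le _ _ fun i hi => (natDegree_C_mul_X_pow_le _ _).trans ?_
  rw [mem_range] at hi
  omega

theorem powSum_eq_neg (hF : ringChar F ≠ 2) (hf : f.Monic) (hsq : Squarefree f)
    (hm : 1 ≤ f.natDegree) {n : ℕ} (hn : 1 ≤ n) :
    (powSum f n : ℂ) = -((lRoots f).map (· ^ n)).sum := by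
  obtain ⟨D, hD⟩ : ∃ D : PowerSeries ℂ,
      D = (((lPoly f).map (Int.castRingHom ℂ) : ℂ[X]) : PowerSeries ℂ) := ⟨_, rfl⟩
  have h0 : (lPoly f).coeff 0 = 1 := by rw [coeff_lPoly, if_pos (by omega), lSum_zero]
  have hcoeff : ∀ i, PowerSeries.coeff i D = (lSum f i : ℂ) := fun i => by
    rw [hD, Polynomial.coeff_coe, coeff_map, coeff_lPoly_eq hF hf hsq hm, eq_intCast]
  have hne : D ≠ 0 := fun h => by
    have := hcoeff 0
    rw [h, map_zero, lSum_zero, Int.cast_one] at this
    exact zero_ne_one this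
  have h1 : PowerSeries.derivative ℂ D = D * logSeries (fun k => (powSum f k : ℂ)) := by
    ext j
    rw [PowerSeries.coeff_derivative, PowerSeries.coeff_mul,
      Finset.Nat.sum_antidiagonal_eq_sum_range_succ
        (fun a b =>
          PowerSeries.coeff a D * PowerSeries.coeff b (logSeries fun k => (powSum f k : ℂ)))]
    have h2 := congrArg (Int.cast : ℤ → ℂ) (newton_identity f (j + 1))
    push_cast at h2
    rw [hcoeff, mul_comm, h2, show Icc 1 (j + 1) = Ico 1 (j + 1 + 1) by ext; simp,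
      sum_Ico_eq_sum_range, Nat.add_sub_cancel]
    rw [← sum_range_reflect]
    refine sum_congr rfl fun i hi => ?_
    rw [mem_range] at hi
    simp only [logSeries, PowerSeries.coeff_mk, hcoeff]
    rw [show 1 + (j + 1 - 1 - i) = j - i + 1 by omega, show j + 1 - (j - i + 1) = i by omega,
      mul_comm]
  have h2 := derivative_prod_one_sub (lRoots f)
  rw [lRoots, ← map_eq_prod_roots_reverse h0, ← hD, h1, ← lRoots, mul_comm, ← neg_mul] at h2
  obtain ⟨j, rfl⟩ := Nat.exists_eq_add_of_le' hn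
  simpa [logSeries] using congrArg (PowerSeries.coeff j) (mul_right_cancel₀ hne h2)

theorem abs_powSum_le (hF : ringChar F ≠ 2) (hsq : Squarefree f)
    (hm : 1 ≤ f.natDegree) {n : ℕ} (hn : 1 ≤ n) :
    |(powSum f n : ℝ)| ≤ 25 * (f.natDegree + 1) * Real.sqrt (Fintype.card F) ^ n := by
  classical
  have : Fact (ringChar F).Prime := ⟨CharP.char_is_prime F _⟩
  have : NeZero n := ⟨by omega⟩
  let K := FiniteField.Extension F (ringChar F) n
  let _ : Fintype K := Fintype.ofFinite K
  have hK : ringChar K ≠ 2 := fun h => hF (by rw [Algebra.ringChar_eq F K, h])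
  have hns : ¬ ConstMulSq (f.map (algebraMap F K)) := by
    rintro ⟨c, u, h⟩
    have hsq' : Squarefree (f.map (algebraMap F K)) :=
      ((PerfectField.separable_iff_squarefree.2 hsq).map).squarefree
    have hu : IsUnit u := hsq' u (h ▸ ⟨Polynomial.C c, by ring⟩)
    obtain ⟨a, -, rfl⟩ := isUnit_iff.1 hu
    have := congrArg natDegree h
    rw [natDegree_map, ← C_pow, ← C_mul, natDegree_C] at this
    omega
  have h := abs_sum_chi_le hK hns
  rw [natDegree_map] at h
  have hc : Fintype.card K = Fintype.card F ^ n := by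
    rw [Fintype.card_eq_nat_card, Fintype.card_eq_nat_card, FiniteField.natCard_extension]
  rw [hc, Nat.cast_pow, Real.sqrt_eq_rpow, ← Real.rpow_natCast, ← Real.rpow_mul
    (Nat.cast_nonneg _), mul_comm (n : ℝ), Real.rpow_mul (Nat.cast_nonneg _), Real.rpow_natCast,
    ← Real.sqrt_eq_rpow] at h
  refine le_trans (le_of_eq (congrArg abs ?_)) h
  have h3 := sum_quadraticChar_eq_powSum (K := K) hF f
  rw [FiniteField.finrank_extension F (ringChar F) n] at h3
  rw [← h3]
  push_cast
  simp only [eval_map_algebraMap]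

/-- **The Riemann hypothesis.** -/
theorem norm_lRoots_le (hF : ringChar F ≠ 2) (hf : f.Monic) (hsq : Squarefree f)
    (hm : 1 ≤ f.natDegree) {a : ℂ} (ha : a ∈ lRoots f) : ‖a‖ ≤ Real.sqrt (Fintype.card F) := by
  refine norm_le_of_powerSums (C := 25 * (f.natDegree + 1))
    (Real.sqrt_pos.2 (Nat.cast_pos.2 Fintype.card_pos)) (fun n hn => ?_) ha
  rw [← norm_neg, ← powSum_eq_neg hF hf hsq hm hn, Complex.norm_intCast]
  exact abs_powSum_le hF hsq hm hn

theorem abs_powSum_le_sharp (hF : ringChar F ≠ 2) (hf : f.Monic) (hsq : Squarefree f)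
    (hm : 1 ≤ f.natDegree) {n : ℕ} (hn : 1 ≤ n) :
    |(powSum f n : ℝ)| ≤ (f.natDegree - 1 : ℕ) * Real.sqrt (Fintype.card F) ^ n := by
  rw [← Complex.norm_intCast, powSum_eq_neg hF hf hsq hm hn, norm_neg]
  refine (norm_multiset_sum_le _).trans ?_
  rw [Multiset.map_map]
  refine ((Multiset.sum_le_card_nsmul _ (Real.sqrt (Fintype.card F) ^ n) fun x hx => ?_)).trans ?_
  · obtain ⟨a, ha, rfl⟩ := Multiset.mem_map.1 hx
    simp only [Function.comp_apply, norm_pow]
    exact pow_le_pow_left₀ (norm_nonneg _) (norm_lRoots_le hF hf hsq hm ha) _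
  · rw [Multiset.card_map, nsmul_eq_mul]
    exact mul_le_mul_of_nonneg_right (Nat.cast_le.2 (card_lRoots_le f)) (by positivity)

/-- **Weil's bound, exact.** -/
theorem abs_sum_quadraticChar_le (hF : ringChar F ≠ 2) (hsq : Squarefree f)
    (hm : 1 ≤ f.natDegree) :
    |∑ x : F, (quadraticChar F (f.eval x) : ℝ)| ≤
      (f.natDegree - 1 : ℕ) * Real.sqrt (Fintype.card F) := by
  have hf0 : f ≠ 0 := hsq.ne_zero
  obtain ⟨g, hg⟩ : ∃ g, g = f * Polynomial.C f.leadingCoeff⁻¹ := ⟨_, rfl⟩
  have hgm : g.Monic := hg ▸ monic_mul_leadingCoeff_inv hf0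
  have hgd : g.natDegree = f.natDegree := by
    rw [hg, natDegree_mul_C (inv_ne_zero (leadingCoeff_ne_zero.2 hf0))]
  have hgs : Squarefree g := hsq.squarefree_of_dvd ⟨Polynomial.C f.leadingCoeff, by
    rw [hg, mul_assoc, ← C_mul, inv_mul_cancel₀ (leadingCoeff_ne_zero.2 hf0), C_1, mul_one]⟩
  have h := abs_powSum_le_sharp hF hgm hgs (hgd ▸ hm) le_rfl
  rw [pow_one, hgd, ← Module.finrank_self F, ← sum_quadraticChar_eq_powSum (K := F) hF g,
    Module.finrank_self] at h
  refine le_trans (le_of_eq ?_) h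
  push_cast
  simp only [coe_aeval_eq_eval, hg, eval_C, map_mul, Int.cast_mul, ← sum_mul, abs_mul]
  rcases quadraticChar_dichotomy (inv_ne_zero (leadingCoeff_ne_zero.2 hf0)) with e | e <;>
    simp [e]

end FA.HyperellipticWeil
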