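import Mathlib.RingTheory.Polynomial.UniqueFactorization
import Mathlib.RingTheory.IntegralClosure.IntegrallyClosed
import Mathlib.FieldTheory.Finite.Basic
import Mathlib.Algebra.Polynomial.FieldDivision
import Mathlib.Algebra.Polynomial.HasseDeriv
import Mathlib.Algebra.Polynomial.Taylor
import Mathlib.LinearAlgebra.Dimension.Constructions
import Mathlib.NumberTheory.LegendreSymbol.QuadraticChar.Basic
import Mathlib.Analysis.SpecialFunctions.Sqrt
import Mathlib.Tactic

/-!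
# Stepanov's bound over every finite field

`|∑_x χ (f x)| ≤ 25 (deg f + 1) √q`, `q = #K`, if `f` is not a constant times a square; Hasse
derivatives, as `√q` may exceed the characteristic.
-/

set_option autoImplicit false
set_option linter.unusedSectionVars false

noncomputable section

namespace FA.HyperellipticWeil

open Polynomial Finset

variable {K : Type*} [Field K] [Fintype K] [DecidableEq K]

local notation "𝕢" => Fintype.card K

/-- `f` is a constant times a square. -/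
def ConstMulSq (f : K[X]) : Prop := ∃ (c : K) (u : K[X]), f = C c * u ^ 2

theorem pow_card_sub_dvd (f : K[X]) : X ^ 𝕢 ∣ f ^ 𝕢 - C (f.eval 0) := by
  have h : X ∣ f - C (f.eval 0) := by
    rw [X_dvd_iff, coeff_sub, coeff_C_zero, coeff_zero_eq_eval_zero, sub_self]
  have h2 := pow_dvd_pow_of_dvd h 𝕢
  rwa [← FiniteField.expand_card (f - C _), map_sub, expand_C, FiniteField.expand_card] at h2

theorem head_eq_zero {f r s : K[X]} {A g : ℕ} (hg : 𝕢 = 2 * g + 1)
    (hA : 2 * A + f.natDegree < 𝕢) (hf0 : f.eval 0 ≠ 0) (hns : ¬ ConstMulSq f)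
    (hr : r.natDegree ≤ A) (hs : s.natDegree ≤ A) (h : X ^ 𝕢 ∣ r + s * f ^ g) :
    r = 0 ∧ s = 0 := by
  have h1 : X ^ 𝕢 ∣ r ^ 2 * f - C (f.eval 0) * s ^ 2 := by
    have e : r ^ 2 * f - C (f.eval 0) * s ^ 2 =
        (r + s * f ^ g) * ((r - s * f ^ g) * f) + s ^ 2 * (f ^ 𝕢 - C (f.eval 0)) := by
      rw [congrArg (f ^ ·) hg, pow_succ f (2 * g), pow_mul' f 2 g]
      ring
    rw [e]
    exact dvd_add (h.mul_right _) ((pow_card_sub_dvd f).mul_left _)
  have h2 : r ^ 2 * f - C (f.eval 0) * s ^ 2 = 0 := by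
    refine eq_zero_of_dvd_of_natDegree_lt h1 ?_
    rw [natDegree_X_pow]
    refine (natDegree_sub_le _ _).trans_lt (max_lt ?_ ?_)
    · refine natDegree_mul_le.trans_lt ?_
      have := natDegree_pow_le (p := r) (n := 2)
      omega
    · refine natDegree_mul_le.trans_lt ?_
      rw [natDegree_C]
      have := natDegree_pow_le (p := s) (n := 2)
      omega
  rw [sub_eq_zero] at h2
  rcases eq_or_ne r 0 with hr0 | hr0
  · refine ⟨hr0, ?_⟩
    rw [hr0, zero_pow two_ne_zero, zero_mul, eq_comm, mul_eq_zero, C_eq_zero] at h2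
    exact pow_eq_zero_iff two_ne_zero |>.1 (h2.resolve_left hf0)
  · exfalso
    have hu : IsUnit (C (f.eval 0)) := isUnit_C.2 (Ne.isUnit hf0)
    obtain ⟨t, rfl⟩ : r ∣ s := by
      refine (IsIntegrallyClosed.pow_dvd_pow_iff two_ne_zero).1 ?_
      exact (hu.dvd_mul_left).1 ⟨f, h2.symm⟩
    refine hns ⟨f.eval 0, t, mul_left_cancel₀ (pow_ne_zero 2 hr0) ?_⟩
    rw [h2]
    ring

/-- **The auxiliary polynomials are independent.** -/
theorem coeffs_eq_zero {f : K[X]} {A g : ℕ} (hg : 𝕢 = 2 * g + 1)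
    (hA : 2 * A + f.natDegree < 𝕢) (hf0 : f.eval 0 ≠ 0) (hns : ¬ ConstMulSq f) (J : ℕ)
    (r s : ℕ → K[X]) (hr : ∀ j, (r j).natDegree ≤ A) (hs : ∀ j, (s j).natDegree ≤ A)
    (h : ∑ j ∈ Finset.range J, (r j + s j * f ^ g) * X ^ (𝕢 * j) = 0) :
    ∀ j < J, r j = 0 ∧ s j = 0 := by
  induction J generalizing r s with
  | zero => intro j hj; omega
  | succ J ih =>
    rw [Finset.sum_range_succ'] at h
    have e : ∑ j ∈ Finset.range J, (r (j + 1) + s (j + 1) * f ^ g) * X ^ (𝕢 * (j + 1)) =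
        X ^ 𝕢 * ∑ j ∈ Finset.range J, (r (j + 1) + s (j + 1) * f ^ g) * X ^ (𝕢 * j) := by
      rw [Finset.mul_sum]
      exact Finset.sum_congr rfl fun j _ => by rw [mul_add 𝕢 j 1, mul_one, pow_add]; ring
    rw [e, mul_zero, pow_zero, mul_one] at h
    have h0 : r 0 = 0 ∧ s 0 = 0 := by
      refine head_eq_zero hg hA hf0 hns (hr 0) (hs 0) ?_
      rw [eq_neg_of_add_eq_zero_right h]
      exact (dvd_mul_right _ _).neg_right
    rw [h0.1, h0.2, zero_mul, add_zero, add_zero] at h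
    have h' := (mul_eq_zero.1 h).resolve_left (pow_ne_zero _ X_ne_zero)
    intro j hj
    rcases j with _ | j
    · exact h0
    · exact ih (fun i => r (i + 1)) (fun i => s (i + 1)) (fun i => hr _) (fun i => hs _) h' j
        (by omega)

theorem pow_sub_dvd_hasseDeriv (f r : K[X]) :
    ∀ n l : ℕ, f ^ (n - l) ∣ hasseDeriv l (f ^ n * r) := by
  intro n
  induction n with
  | zero => intro l; simp
  | succ n ih =>
    intro l
    rw [pow_succ', mul_assoc, hasseDeriv_mul]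
    refine dvd_sum fun x hx => ?_
    rw [HasAntidiagonal.mem_antidiagonal] at hx
    rcases Nat.eq_zero_or_pos x.1 with h | h
    · rw [h, hasseDeriv_zero', show x.2 = l by omega]
      refine dvd_trans ?_ (mul_dvd_mul_left f (ih l))
      rw [← pow_succ']
      exact pow_dvd_pow f (by omega)
    · exact ((pow_dvd_pow f (by omega)).trans (ih x.2)).mul_left _

theorem exists_hasse_quotient {f : K[X]} (hf : f ≠ 0) (r : K[X]) {n l : ℕ} (hl : l ≤ n) :
    ∃ Q : K[X], hasseDeriv l (f ^ n * r) = f ^ (n - l) * Q ∧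
      Q.natDegree ≤ r.natDegree + l * f.natDegree := by
  obtain ⟨Q, hQ⟩ := pow_sub_dvd_hasseDeriv f r n l
  refine ⟨Q, hQ, ?_⟩
  rcases eq_or_ne Q 0 with rfl | hQ0
  · simp
  have h := (natDegree_hasseDeriv_le (f ^ n * r) l).trans
    ((Nat.sub_le _ _).trans natDegree_mul_le)
  rw [hQ, natDegree_mul (pow_ne_zero _ hf) hQ0, natDegree_pow, natDegree_pow] at h
  have : n * f.natDegree = (n - l) * f.natDegree + l * f.natDegree := by
    rw [← add_mul, Nat.sub_add_cancel hl]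
  omega

theorem eval_hasseDeriv_mul_X_pow_card (G : K[X]) (x : K) {l : ℕ} (hl : l < 𝕢) (j : ℕ) :
    eval x (hasseDeriv l (G * X ^ (𝕢 * j))) = eval x (hasseDeriv l G) * x ^ j := by
  have h : X ^ 𝕢 ∣ (X + C x) ^ (𝕢 * j) - C (x ^ j) := by
    rw [pow_mul, ← FiniteField.expand_card (X + C x), map_add, expand_X, expand_C, C_pow]
    refine dvd_trans ?_ (sub_dvd_pow_sub_pow _ _ j)
    rw [add_sub_cancel_right]
  obtain ⟨S, hS⟩ := h
  rw [← taylor_coeff, ← taylor_coeff, taylor_mul, taylor_pow, taylor_X, eq_add_of_sub_eq hS,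
    mul_add, coeff_add, mul_left_comm, coeff_X_pow_mul', if_neg (not_le.2 hl), zero_add,
    coeff_mul_C]

theorem rootMultiplicity_of_hasseDeriv {H : K[X]} (h0 : H ≠ 0) {x : K} {M : ℕ}
    (h : ∀ l < M, eval x (hasseDeriv l H) = 0) : M ≤ H.rootMultiplicity x := by
  rw [le_rootMultiplicity_iff h0]
  obtain ⟨R, hR⟩ : X ^ M ∣ taylor x H := X_pow_dvd_iff.2 fun l hl => by rw [taylor_coeff, h l hl]
  refine ⟨taylor (-x) R, ?_⟩
  have := congrArg (taylor (-x)) hR
  rwa [taylor_taylor, neg_add_cancel, taylor_zero, taylor_mul, taylor_pow, taylor_X, C_neg,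
    ← sub_eq_add_neg] at this

/-- The solutions of `f x ^ (𝕢 / 2) = a`. -/
def powClass (f : K[X]) (a : K) : Finset (K) :=
  univ.filter fun x => (f.eval x) ^ (𝕢 / 2) = a

theorem exists_auxiliary {f : K[X]} {A M J : ℕ} {a : K} (hp : Odd 𝕢)
    (hA : 2 * A + f.natDegree < 𝕢) (hMq : M ≤ 𝕢) (hf0 : f.eval 0 ≠ 0) (hns : ¬ ConstMulSq f)
    (hcount : M * (A + M * f.natDegree + J + 1) < 2 * J * (A + 1)) :
    ∃ H : K[X], H ≠ 0 ∧
      H.natDegree ≤ (M + 𝕢 / 2) * f.natDegree + A + 𝕢 * J ∧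
      ∀ x ∈ powClass f a, ∀ l < M, eval x (hasseDeriv l H) = 0 := by
  classical
  obtain ⟨g, hg⟩ : ∃ g, g = 𝕢 / 2 := ⟨_, rfl⟩
  have hpg : 𝕢 = 2 * g + 1 := by
    obtain ⟨t, ht⟩ := hp
    omega
  have hfne : f ≠ 0 := fun h => hf0 (by simp [h])
  obtain ⟨n, hn⟩ : ∃ n : Fin 2 → ℕ, n = ![M, M + g] := ⟨_, rfl⟩
  let ι := Fin 2 × Fin J × Fin (A + 1)
  obtain ⟨E, hE⟩ : ∃ E : ι → K[X],
      E = fun i => f ^ n i.1 * X ^ (i.2.2 : ℕ) * X ^ (𝕢 * (i.2.1 : ℕ)) := ⟨_, rfl⟩
  have hex : ∀ (l : ℕ) (i : ι), ∃ D : K[X], (D.natDegree ≤ (i.2.2 : ℕ) + l * f.natDegree) ∧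
      (l ≤ n i.1 → hasseDeriv l (f ^ n i.1 * X ^ (i.2.2 : ℕ)) = f ^ (n i.1 - l) * D) :=
    fun l i => by
    by_cases hl : l ≤ n i.1
    · obtain ⟨D, h1, h2⟩ := exists_hasse_quotient hfne (X ^ (i.2.2 : ℕ)) hl
      exact ⟨D, by simpa using h2, fun _ => h1⟩
    · exact ⟨0, by simp, fun h => absurd h hl⟩
  choose D hDdeg hD using hex
  obtain ⟨Q, hQ⟩ : ∃ Q : ℕ → ι → K[X],
      Q = fun l i => C (![1, a] i.1) * D l i * X ^ (i.2.1 : ℕ) := ⟨_, rfl⟩
  obtain ⟨d, hd⟩ : ∃ d, d = A + M * f.natDegree + J + 1 := ⟨_, rfl⟩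
  let Φ : (ι → K) →ₗ[K] (Fin M × Fin d → K) :=
    { toFun := fun v x => ∑ i, v i * (Q x.1 i).coeff x.2
      map_add' := fun v w => by
        funext x
        simp [add_mul, sum_add_distrib]
      map_smul' := fun c v => by
        funext x
        simp [mul_sum, mul_assoc] }
  have hker : LinearMap.ker Φ ≠ ⊥ := by
    refine LinearMap.ker_ne_bot_of_finrank_lt ?_
    rw [Module.finrank_fintype_fun_eq_card, Module.finrank_fintype_fun_eq_card]
    simp only [ι, Fintype.card_prod, Fintype.card_fin]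
    rw [hd]
    linarith
  obtain ⟨v, hv, hv0⟩ := (Submodule.ne_bot_iff _).1 hker
  rw [LinearMap.mem_ker] at hv
  obtain ⟨H, hH⟩ : ∃ H : K[X], H = ∑ i, C (v i) * E i := ⟨_, rfl⟩
  have hQdeg : ∀ l < M, ∀ i, (Q l i).natDegree < d := by
    intro l hl i
    rw [hQ]
    refine lt_of_le_of_lt natDegree_mul_le ?_
    have h1 := (natDegree_C_mul_le (![1, a] i.1) (D l i)).trans (hDdeg l i)
    rw [natDegree_X_pow]
    have h2 := i.2.1.2
    have h3 := i.2.2.2
    have h4 : l * f.natDegree ≤ M * f.natDegree := Nat.mul_le_mul_right _ hl.le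
    omega
  have hzero : ∀ l < M, ∑ i, C (v i) * Q l i = 0 := by
    intro l hl
    ext k
    rw [finsetSum_coeff, coeff_zero]
    simp only [coeff_C_mul]
    by_cases hk : k < d
    · exact congrFun hv (⟨l, hl⟩, ⟨k, hk⟩)
    · exact sum_eq_zero fun i _ => by
        rw [coeff_eq_zero_of_natDegree_lt ((hQdeg l hl i).trans_le (not_lt.1 hk)), mul_zero]
  refine ⟨H, fun hH0 => hv0 ?_, ?_, fun x hx l hl => ?_⟩
  · have key := coeffs_eq_zero hpg hA hf0 hns J
      (fun j => if hj : j < J then ∑ k : Fin (A + 1), C (v (0, ⟨j, hj⟩, k)) * X ^ (k : ℕ) else 0)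
      (fun j => if hj : j < J then ∑ k : Fin (A + 1), C (v (1, ⟨j, hj⟩, k)) * X ^ (k : ℕ) else 0)
      ?_ ?_ ?_
    · funext i
      obtain ⟨i₀, ⟨j, hj⟩, k⟩ := i
      obtain ⟨h1, h2⟩ := key j hj
      simp only [dif_pos hj] at h1 h2
      have hc : ∀ w : Fin (A + 1) → K,
          ∑ k : Fin (A + 1), C (w k) * X ^ (k : ℕ) = 0 → ∀ k, w k = 0 := by
        intro w hw k
        have := congrArg (fun w : K[X] => w.coeff (k : ℕ)) hw
        simpa [finsetSum_coeff, coeff_C_mul, coeff_X_pow, Fin.val_inj] using this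
      fin_cases i₀
      · exact hc _ h1 k
      · exact hc _ h2 k
    · intro j
      split_ifs
      · refine natDegree_sum_le_of_forall_le _ _ fun k _ => (natDegree_C_mul_X_pow_le _ _).trans ?_
        exact Nat.lt_succ_iff.1 k.2
      · simp
    · intro j
      split_ifs
      · refine natDegree_sum_le_of_forall_le _ _ fun k _ => (natDegree_C_mul_X_pow_le _ _).trans ?_
        exact Nat.lt_succ_iff.1 k.2
      · simp
    · refine ((mul_eq_zero (a := f ^ M)).1 ?_).resolve_left (pow_ne_zero _ hfne)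
      rw [← hH0, hH, hE, Fintype.sum_prod_type, Fin.sum_univ_two, mul_sum, sum_range]
      simp only [Fintype.sum_prod_type, hn]
      rw [← sum_add_distrib]
      refine sum_congr rfl fun j _ => ?_
      simp only [dif_pos j.2, Fin.eta, Matrix.cons_val_zero, Matrix.cons_val_one, sum_mul, add_mul,
        mul_add, mul_sum, pow_add]
      refine congrArg₂ (· + ·) (sum_congr rfl fun k _ => ?_) (sum_congr rfl fun k _ => ?_) <;> ring
  · rw [hH]
    refine natDegree_sum_le_of_forall_le _ _ fun i _ => (natDegree_C_mul_le _ _).trans ?_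
    rw [hE]
    refine natDegree_mul_le.trans ?_
    rw [natDegree_X_pow]
    refine le_trans (Nat.add_le_add_right natDegree_mul_le _) ?_
    rw [natDegree_X_pow]
    have h1 : n i.1 ≤ M + g := by
      obtain ⟨i₀, i₁⟩ := i
      rw [hn]
      fin_cases i₀ <;> simp
    have h2 := natDegree_pow_le (p := f) (n := n i.1)
    have h3 : n i.1 * f.natDegree ≤ (M + g) * f.natDegree := Nat.mul_le_mul_right _ h1
    have h4 := i.2.2.2
    have h5 : 𝕢 * (i.2.1 : ℕ) ≤ 𝕢 * J := Nat.mul_le_mul_left _ i.2.1.2.le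
    rw [hg] at h3
    omega
  · rw [powClass, mem_filter, ← hg] at hx
    rw [hH, map_sum, eval_finsetSum]
    have e : ∀ i, eval x (hasseDeriv l (C (v i) * E i)) =
        eval x f ^ (M - l) * eval x (C (v i) * Q l i) := by
      intro i
      have hn' : l ≤ n i.1 := by
        obtain ⟨i₀, i₁⟩ := i
        rw [hn]
        fin_cases i₀ <;> simp <;> omega
      rw [← smul_eq_C_mul, map_smul, eval_smul, smul_eq_mul, hE,
        eval_hasseDeriv_mul_X_pow_card _ _ (hl.trans_le hMq), hD l i hn', hQ]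
      simp only [eval_mul, eval_C, eval_pow, eval_X]
      have hpow : eval x f ^ (n i.1 - l) = eval x f ^ (M - l) * ![1, a] i.1 := by
        obtain ⟨i₀, i₁⟩ := i
        rw [hn]
        fin_cases i₀
        · simp
        · simp only [Fin.mk_one, Matrix.cons_val_one, Matrix.cons_val_zero]
          rw [show M + g - l = M - l + g by omega, pow_add, hx.2]
      rw [hpow]
      ring
    simp only [e, ← mul_sum, ← eval_finsetSum, hzero l hl, eval_zero, mul_zero]

theorem powClass_card_le {f : K[X]} (hm : 1 ≤ f.natDegree) (hf0 : f.eval 0 ≠ 0)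
    (hns : ¬ ConstMulSq f) (hchar : ringChar K ≠ 2) (hbig : 100 * (f.natDegree + 1) ^ 2 ≤ 𝕢)
    (a : K) :
    ((powClass f a).card : ℝ) ≤ (𝕢 : ℝ) / 2 + 12 * (f.natDegree + 1) * Real.sqrt 𝕢 := by
  obtain ⟨m, hm'⟩ : ∃ m, m = f.natDegree := ⟨_, rfl⟩
  rw [← hm'] at hm hbig ⊢
  have hp100 : 100 * (m + 1) ≤ 𝕢 :=
    le_trans (Nat.mul_le_mul_left _ (Nat.le_self_pow two_ne_zero _)) hbig
  have hodd : Odd 𝕢 := Nat.odd_iff.2 (FiniteField.odd_card_of_char_ne_two hchar)
  obtain ⟨M, hM⟩ : ∃ M, M = Nat.sqrt 𝕢 := ⟨_, rfl⟩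
  obtain ⟨A, hA⟩ : ∃ A, A = (𝕢 - m - 1) / 2 := ⟨_, rfl⟩
  obtain ⟨c, hc⟩ : ∃ c, c = 4 * (m + 1) := ⟨_, rfl⟩
  obtain ⟨J, hJ⟩ : ∃ J, J = M / 2 + c := ⟨_, rfl⟩
  have hMsq : M * M ≤ 𝕢 := hM ▸ Nat.sqrt_le 𝕢
  have hM10 : 10 * (m + 1) ≤ M := by
    rw [hM, Nat.le_sqrt]
    refine le_trans (le_of_eq ?_) hbig
    ring
  have hMp : M < 𝕢 := lt_of_lt_of_le (by nlinarith : M < M * M) hMsq
  have hcount : M * (A + M * m + J + 1) < 2 * J * (A + 1) := by
    have hJ2 : M + 2 * c ≤ 2 * J + 1 := by omega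
    have hA3 : 𝕢 ≤ 3 * A := by omega
    have h1 : (M + 2 * c) * (A + 1) ≤ (2 * J + 1) * (A + 1) := Nat.mul_le_mul_right _ hJ2
    have h2 : M * M * m ≤ 𝕢 * m := Nat.mul_le_mul_right _ hMsq
    have h3 : M * (2 * J) ≤ M * (M + 2 * c) := Nat.mul_le_mul_left _ (by omega)
    have h4 : 10 * (m + 1) * M ≤ M * M := Nat.mul_le_mul_right _ hM10
    have h5 : 𝕢 * (8 * m + 7) ≤ 3 * A * (8 * m + 7) := Nat.mul_le_mul_right _ hA3
    rw [hc] at h1 h3
    nlinarith
  obtain ⟨H, hH0, hHdeg, hroot⟩ := exists_auxiliary (a := a) hodd (A := A) (M := M) (J := J)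
    (by rw [← hm']; omega) hMp.le hf0 hns (by rw [← hm']; exact hcount)
  rw [← hm'] at hHdeg
  have hcard : (powClass f a).card * M ≤ H.natDegree := by
    refine le_trans ?_ (Polynomial.card_roots' H)
    rw [← smul_eq_mul, ← sum_const]
    refine le_trans (sum_le_sum (g := fun x => H.roots.count x) fun x hx => ?_)
      ((sum_le_sum_of_subset (subset_univ _)).trans (le_of_eq ?_))
    · rw [count_roots]
      exact rootMultiplicity_of_hasseDeriv hH0 fun l hl => hroot x hx l hl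
    · exact H.roots.sum_count_eq_card fun x _ => mem_univ x
  have key : (powClass f a).card * M ≤ 𝕢 * (M / 2) + 𝕢 * (5 * m + 6) := by
    refine (hcard.trans hHdeg).trans ?_
    have h1 : M * m ≤ 𝕢 * m := Nat.mul_le_mul_right _ hMp.le
    have h2 : 𝕢 / 2 * m ≤ 𝕢 * m := Nat.mul_le_mul_right _ (Nat.div_le_self 𝕢 2)
    have h3 : A ≤ 𝕢 := by omega
    rw [hJ, hc]
    nlinarith
  have hMr : (0 : ℝ) < M := Nat.cast_pos.2 (by omega)
  have hsqrt : Real.sqrt 𝕢 ≤ 2 * M := by
    rw [Real.sqrt_le_left (by positivity)]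
    have h1 : 𝕢 < (M + 1) * (M + 1) := hM ▸ Nat.lt_succ_sqrt 𝕢
    have h2 : (M + 1) * (M + 1) ≤ 2 * M * (2 * M) := Nat.mul_le_mul (by omega) (by omega)
    have h3 : ((𝕢 : ℕ) : ℝ) ≤ ((2 * M * (2 * M) : ℕ) : ℝ) := Nat.cast_le.2 (h1.le.trans h2)
    push_cast at h3
    linarith
  refine le_of_mul_le_mul_right ?_ hMr
  have h1 : ((powClass f a).card : ℝ) * M ≤ (𝕢 : ℝ) * ((M / 2 : ℕ) : ℝ) + 𝕢 * (5 * m + 6) := by
    exact_mod_cast key
  refine h1.trans ?_
  rw [add_mul]
  refine add_le_add ?_ ?_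
  · refine (mul_le_mul_of_nonneg_left Nat.cast_div_le (Nat.cast_nonneg 𝕢)).trans (le_of_eq ?_)
    push_cast
    ring
  · have h2 := mul_le_mul_of_nonneg_left hsqrt (Real.sqrt_nonneg 𝕢)
    rw [Real.mul_self_sqrt (Nat.cast_nonneg 𝕢)] at h2
    have h3 := mul_le_mul_of_nonneg_left h2 (show (0 : ℝ) ≤ 5 * m + 6 by positivity)
    have h4 : 0 ≤ Real.sqrt 𝕢 * M * (2 * m) := by positivity
    linarith

theorem abs_quadraticChar_le (x : K) : |(quadraticChar K x : ℝ)| ≤ 1 := by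
  rcases eq_or_ne x 0 with rfl | hx
  · simp
  · rcases quadraticChar_dichotomy hx with h | h <;> simp [h]

theorem abs_sum_chi_le_of_large {f : K[X]} (hm : 1 ≤ f.natDegree) (hf0 : f.eval 0 ≠ 0)
    (hns : ¬ ConstMulSq f) (hchar : ringChar K ≠ 2) (hbig : 100 * (f.natDegree + 1) ^ 2 ≤ 𝕢) :
    |∑ x : K, (quadraticChar K (f.eval x) : ℝ)| ≤ 25 * (f.natDegree + 1) * Real.sqrt 𝕢 := by
  classical
  have hp3 : 3 ≤ 𝕢 := by
    have : 4 ≤ (f.natDegree + 1) ^ 2 := Nat.pow_le_pow_left (n := 2) (by omega) 2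
    omega
  obtain ⟨Z, hZ⟩ : ∃ Z, Z = univ.filter fun x : K => f.eval x = 0 := ⟨_, rfl⟩
  have hZcard : Z.card ≤ f.natDegree := by
    refine le_trans ?_ (Polynomial.card_roots' f)
    refine le_trans (card_le_card fun x hx => ?_) (Multiset.toFinset_card_le _)
    rw [hZ, mem_filter] at hx
    rw [Multiset.mem_toFinset, mem_roots (fun h => hf0 (by simp [h]))]
    exact hx.2
  have hne : (1 : K) ≠ -1 := (Ring.neg_one_ne_one_of_char_ne_two hchar).symm
  have hg0 : 𝕢 / 2 ≠ 0 := by omega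
  have e : ∀ x : K, (quadraticChar K (f.eval x) : ℝ) =
      (if x ∈ powClass f 1 then (1 : ℝ) else 0) - if x ∈ powClass f (-1) then (1 : ℝ) else 0 := by
    intro x
    rw [powClass, powClass]
    simp only [mem_filter, mem_univ, true_and]
    rcases eq_or_ne (f.eval x) 0 with h | h
    · simp [h, zero_pow hg0]
    · have h2 := quadraticChar_eq_pow_of_char_ne_two hchar h
      rcases FiniteField.pow_dichotomy hchar h with h3 | h3
      · rw [h2, h3]
        simp [hne]
      · rw [h2, h3]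
        simp [hne.symm]
  rw [sum_congr rfl fun x _ => e x, sum_sub_distrib]
  simp only [sum_ite_mem, univ_inter, sum_const, nsmul_one]
  have hcover : 𝕢 ≤ (powClass f 1).card + (powClass f (-1)).card + Z.card := by
    calc 𝕢 = (univ : Finset K).card := card_univ.symm
      _ ≤ (powClass f 1 ∪ powClass f (-1) ∪ Z).card := card_le_card fun x _ => by
          simp only [mem_union, powClass, hZ, mem_filter, mem_univ, true_and]
          rcases eq_or_ne (f.eval x) 0 with h | h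
          · exact Or.inr h
          · exact Or.inl (FiniteField.pow_dichotomy hchar h)
      _ ≤ _ := (card_union_le _ _).trans (Nat.add_le_add_right (card_union_le _ _) _)
  have h1 := powClass_card_le hm hf0 hns hchar hbig 1
  have h2 := powClass_card_le hm hf0 hns hchar hbig (-1)
  have h3 : (𝕢 : ℝ) ≤ (powClass f 1).card + (powClass f (-1)).card + Z.card := by
    exact_mod_cast hcover
  have h4 : (Z.card : ℝ) ≤ f.natDegree := Nat.cast_le.2 hZcard
  have h5 : (f.natDegree : ℝ) ≤ f.natDegree * Real.sqrt 𝕢 :=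
    le_mul_of_one_le_right (Nat.cast_nonneg _) (Real.one_le_sqrt.2 (Nat.one_le_cast.2 (by omega)))
  have h6 := Real.sqrt_nonneg (𝕢 : ℝ)
  rw [abs_le]
  constructor <;> linarith

/-- **Weil's bound for hyperelliptic sums, by Stepanov's method.** -/
theorem abs_sum_chi_le {f : K[X]} (hchar : ringChar K ≠ 2) (hns : ¬ ConstMulSq f) :
    |∑ x : K, (quadraticChar K (f.eval x) : ℝ)| ≤ 25 * (f.natDegree + 1) * Real.sqrt 𝕢 := by
  classical
  have hm : 1 ≤ f.natDegree := by
    by_contra h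
    refine hns ⟨f.coeff 0, 1, ?_⟩
    rw [one_pow, mul_one]
    exact eq_C_of_natDegree_eq_zero (by omega)
  by_cases hbig : 100 * (f.natDegree + 1) ^ 2 ≤ 𝕢
  · have hfne : f ≠ 0 := fun h => hns ⟨0, 0, by simp [h]⟩
    obtain ⟨x₀, hx₀⟩ : ∃ x₀, f.eval x₀ ≠ 0 := by
      by_contra! h
      have h1 := Polynomial.card_le_degree_of_subset_roots (p := f) (Z := univ) fun x _ => by
        rw [mem_roots hfne]
        exact h x
      rw [card_univ] at h1
      have : f.natDegree + 1 ≤ 100 * (f.natDegree + 1) ^ 2 :=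
        (Nat.le_self_pow two_ne_zero _).trans (Nat.le_mul_of_pos_left _ (by norm_num))
      omega
    have hsum : ∑ x : K, (quadraticChar K (f.eval x) : ℝ) =
        ∑ x : K, (quadraticChar K ((f.comp (X + C x₀)).eval x) : ℝ) := by
      rw [← Equiv.sum_comp (Equiv.addRight x₀) fun x => (quadraticChar K (f.eval x) : ℝ)]
      exact sum_congr rfl fun x _ => by simp [eval_comp]
    have hdeg : (f.comp (X + C x₀)).natDegree = f.natDegree := by
      rw [natDegree_comp, natDegree_X_add_C, mul_one]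
    rw [hsum, ← hdeg]
    refine abs_sum_chi_le_of_large (by rwa [hdeg]) (by simpa [eval_comp]) ?_ hchar (by rwa [hdeg])
    rintro ⟨c, u, h⟩
    refine hns ⟨c, u.comp (X - C x₀), ?_⟩
    have := congrArg (fun w : K[X] => w.comp (X - C x₀)) h
    simpa [comp_assoc] using this
  · refine (abs_sum_le_sum_abs _ _).trans ((sum_le_sum fun x _ => abs_quadraticChar_le _).trans ?_)
    rw [sum_const, card_univ, nsmul_one]
    have h1 : Real.sqrt 𝕢 ≤ 10 * (f.natDegree + 1) := by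
      rw [Real.sqrt_le_left (by positivity)]
      have h : (𝕢 : ℝ) ≤ ((100 * (f.natDegree + 1) ^ 2 : ℕ) : ℝ) :=
        Nat.cast_le.2 (not_le.1 hbig).le
      push_cast at h
      linarith
    refine le_trans (le_of_eq (Real.mul_self_sqrt (Nat.cast_nonneg 𝕢)).symm)
      (mul_le_mul_of_nonneg_right (h1.trans ?_) (Real.sqrt_nonneg _))
    linarith [Nat.cast_nonneg (α := ℝ) f.natDegree]

end FA.HyperellipticWeil
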