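import Mathlib.RingTheory.Polynomial.Resultant.Basic
import Mathlib.Algebra.Polynomial.OfFn
import Mathlib.RingTheory.AdjoinRoot
import Mathlib.RingTheory.Norm.Transitivity
import Mathlib.FieldTheory.Finite.GaloisField
import Mathlib.FieldTheory.Perfect
import Mathlib.FieldTheory.IsAlgClosed.AlgebraicClosure
import Mathlib.NumberTheory.LegendreSymbol.QuadraticChar.Basic
import Mathlib.Tactic

/-!
# The character `g ↦ χ (Res (g, f))` on monic polynomials

It is multiplicative, at a monic irreducible `P` it is `χ` of the norm of `f` from `F[X] / P`, and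
for squarefree monic `f` of degree `m ≥ 1` its sum over the monics of degree `≥ m` vanishes.
-/

set_option autoImplicit false
set_option linter.unusedSectionVars false

noncomputable section

namespace FA.HyperellipticWeil

open Polynomial Finset

variable {F : Type*} [Field F] [Fintype F] [DecidableEq F]

variable (F) in
/-- The polynomials of degree `< d`. -/
def lows (d : ℕ) : Finset F[X] := univ.image (ofFn d)

theorem mem_lows {d : ℕ} {g : F[X]} : g ∈ lows F d ↔ g.degree < d := by
  simp only [lows, mem_image, mem_univ, true_and]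
  refine ⟨fun ⟨v, hv⟩ => hv ▸ ofFn_degree_lt v, fun h => ⟨fun i => g.coeff i, ?_⟩⟩
  ext i
  rcases lt_or_ge i d with hi | hi
  · rw [ofFn_coeff_eq_val_of_lt _ hi]
  · rw [ofFn_coeff_eq_zero_of_ge _ hi,
      coeff_eq_zero_of_degree_lt (h.trans_le (Nat.cast_le.2 hi))]

variable (F) in
/-- The monic polynomials of degree `d`. -/
def monics (d : ℕ) : Finset F[X] := (lows F d).image (X ^ d + ·)

theorem mem_monics {d : ℕ} {g : F[X]} : g ∈ monics F d ↔ g.Monic ∧ g.natDegree = d := by
  simp only [monics, mem_image, mem_lows]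
  constructor
  · rintro ⟨r, hr, rfl⟩
    refine ⟨monic_X_pow_add hr, natDegree_eq_of_degree_eq_some ?_⟩
    rw [degree_add_eq_left_of_degree_lt (by rwa [degree_X_pow]), degree_X_pow]
  · rintro ⟨hg, rfl⟩
    exact ⟨g.eraseLead, (degree_eraseLead_lt hg.ne_zero).trans_le degree_le_natDegree, by
      conv_rhs => rw [← g.eraseLead_add_C_mul_X_pow, hg.leadingCoeff, C_1, one_mul, add_comm]⟩

theorem monics_zero : monics F 0 = {1} := by
  ext g
  rw [mem_monics, mem_singleton]
  exact ⟨fun h => h.1.natDegree_eq_zero.1 h.2, fun h => h ▸ ⟨monic_one, natDegree_one⟩⟩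

/-- The character of `f` at `g`. -/
def lam (f g : F[X]) : ℤ := quadraticChar F (resultant g f g.natDegree f.natDegree)

/-- The coefficients of the L-polynomial. -/
def lSum (f : F[X]) (d : ℕ) : ℤ := ∑ g ∈ monics F d, lam f g

theorem lam_one (f : F[X]) : lam f 1 = 1 := by
  simp [lam, natDegree_one]

theorem lSum_zero (f : F[X]) : lSum f 0 = 1 := by
  rw [lSum, monics_zero, sum_singleton, lam_one]

theorem lam_mul (f : F[X]) {g h : F[X]} (hg : g.Monic) (hh : h.Monic) :
    lam f (g * h) = lam f g * lam f h := by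
  rw [lam, lam, lam, hg.natDegree_mul hh, resultant_mul_left g h f _ le_rfl, map_mul]

theorem lam_pow (f : F[X]) {g : F[X]} (hg : g.Monic) (k : ℕ) : lam f (g ^ k) = lam f g ^ k := by
  induction k with
  | zero => simp [lam_one]
  | succ k ih => rw [pow_succ, lam_mul f (hg.pow k) hg, ih, pow_succ]

theorem resultant_eq_norm {P : F[X]} (f : F[X]) (hP : P.Monic) (hirr : Irreducible P) :
    resultant P f P.natDegree f.natDegree = Algebra.norm F (AdjoinRoot.mk P f) := by
  have := Fact.mk hirr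
  have : Module.Finite F (AdjoinRoot P) := (AdjoinRoot.powerBasis hirr.ne_zero).finite
  classical
  apply (algebraMap F (AlgebraicClosure F)).injective
  rw [Algebra.norm_eq_prod_embeddings F (E := AlgebraicClosure F) (AdjoinRoot.mk P f),
    ← resultant_map_map, ← natDegree_map (p := P) (algebraMap F (AlgebraicClosure F)),
    resultant_eq_prod_eval _ _ _ (natDegree_map_le) (IsAlgClosed.splits _),
    (hP.map _).leadingCoeff, one_pow, one_mul]
  have hnd : (P.aroots (AlgebraicClosure F)).Nodup :=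
    nodup_roots (PerfectField.separable_of_irreducible hirr).map
  rw [← Equiv.prod_comp (AdjoinRoot.equiv (AlgebraicClosure F) F P hirr.ne_zero).symm,
    ← aroots_def, eq_comm]
  refine (prod_bij (t := ⟨_, hnd⟩) (fun x _ => (x : AlgebraicClosure F)) ?_ ?_ ?_ ?_)
  · exact fun x _ => x.2
  · exact fun x _ y _ h => Subtype.ext h
  · exact fun b hb => ⟨⟨b, hb⟩, mem_univ _, rfl⟩
  · intro x _
    obtain ⟨σ, rfl⟩ := (AdjoinRoot.equiv (AlgebraicClosure F) F P hirr.ne_zero).surjective x
    rw [Equiv.symm_apply_apply, ← AdjoinRoot.aeval_eq f, ← aeval_algHom_apply,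
      eval_map_algebraMap]
    rfl

theorem exists_lam_eq_neg_one {f : F[X]} (hF : ringChar F ≠ 2) (hf : f.Monic)
    (hsq : Squarefree f) (hm : 1 ≤ f.natDegree) :
    ∃ u ∈ monics F (2 * f.natDegree), lam f u = -1 := by
  obtain ⟨P, hP, hirr, f₂, rfl⟩ : ∃ P : F[X], P.Monic ∧ Irreducible P ∧ P ∣ f :=
    exists_monic_irreducible_factor f (not_isUnit_of_natDegree_pos f hm)
  have hf₂ : f₂.Monic := hP.of_mul_monic_left hf
  have := Fact.mk hirr
  have : Module.Finite F (AdjoinRoot P) := (AdjoinRoot.powerBasis hirr.ne_zero).finite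
  have : Finite (AdjoinRoot P) := Module.finite_of_finite F
  obtain ⟨a, ha⟩ := quadraticChar_exists_neg_one (F := F) hF
  obtain ⟨w, hw⟩ := FiniteField.norm_surjective F (AdjoinRoot P) a
  obtain ⟨w, rfl⟩ := AdjoinRoot.mk_surjective w
  obtain ⟨x, y, hxy⟩ : IsCoprime P f₂ := (squarefree_mul_iff.1 hsq).1.isCoprime
  -- `r ≡ w (P)`, `r ≡ 1 (f₂)`
  obtain ⟨r, hr⟩ : ∃ r, r = (w * (y * f₂) + x * P) %ₘ (P * f₂) := ⟨_, rfl⟩
  obtain ⟨N, hN⟩ : ∃ N, N = (P * f₂).natDegree := ⟨_, rfl⟩
  obtain ⟨u, hu⟩ : ∃ u, u = r + P * f₂ * X ^ N := ⟨_, rfl⟩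
  have hrdeg : r.degree < (N : ℕ) := by
    rw [hN, ← degree_eq_natDegree hf.ne_zero, hr]
    exact degree_modByMonic_lt _ hf
  have hud : u.Monic ∧ u.natDegree = 2 * N := by
    have h1 : (P * f₂ * X ^ N).degree = ((2 * N : ℕ) : WithBot ℕ) := by
      rw [degree_mul, degree_X_pow, degree_eq_natDegree hf.ne_zero, ← hN, two_mul, Nat.cast_add]
    have h2 : r.degree < (P * f₂ * X ^ N).degree := by
      rw [h1]
      exact hrdeg.trans_le (Nat.cast_le.2 (by omega))
    refine ⟨?_, natDegree_eq_of_degree_eq_some ?_⟩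
    · rw [hu, add_comm]
      exact (hf.mul (monic_X_pow N)).add_of_left h2
    · rw [hu, degree_add_eq_right_of_degree_lt h2, h1]
  rw [← hN]
  refine ⟨u, mem_monics.2 hud, ?_⟩
  have hdiv := modByMonic_add_div (w * (y * f₂) + x * P) (P * f₂)
  rw [← hr] at hdiv
  obtain ⟨s, hs⟩ : ∃ s, s = (w * (y * f₂) + x * P) /ₘ (P * f₂) := ⟨_, rfl⟩
  rw [← hs] at hdiv
  rw [lam, hud.2, hP.natDegree_mul hf₂, resultant_mul_right _ _ _ _ hud.2.le, map_mul]
  have hb : resultant u f₂ (2 * N) f₂.natDegree = 1 := by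
    obtain ⟨k, hk⟩ : ∃ k, u = 1 + f₂ * k :=
      ⟨(w * y - y + P * (-s + X ^ N)), by rw [hu]; linear_combination hdiv + hxy⟩
    rw [hk, resultant_add_mul_left _ _ _ _ _ ?_ le_rfl, resultant_one_left, hf₂.coeff_natDegree,
      one_pow, mul_one, mul_assoc, pow_mul, neg_one_sq, one_pow]
    rcases eq_or_ne k 0 with rfl | hk0
    · rw [natDegree_zero, zero_add, hN, hP.natDegree_mul hf₂]
      omega
    · have : (f₂ * k).natDegree ≤ 2 * N := by
        rw [show f₂ * k = u - 1 by rw [hk]; ring]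
        exact (natDegree_sub_le _ _).trans (max_le hud.2.le (by simp))
      rw [natDegree_mul hf₂.ne_zero hk0] at this
      omega
  rw [hb, map_one, mul_one, resultant_comm, mul_comm (2 * N), ← mul_assoc,
    mul_comm P.natDegree 2, mul_assoc, pow_mul, neg_one_sq, one_pow, one_mul, ← hud.2,
    resultant_eq_norm u hP hirr]
  rw [show AdjoinRoot.mk P u = AdjoinRoot.mk P w from
    AdjoinRoot.mk_eq_mk.2 ⟨x - w * x + f₂ * (-s + X ^ N), by
      rw [hu]; linear_combination hdiv + w * hxy⟩, hw, ha]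

/-- The character on residues modulo `f`. -/
def resChar (f r : F[X]) : ℤ := quadraticChar F (resultant r f f.natDegree f.natDegree)

theorem lam_eq_resChar {f g : F[X]} (hf : f.Monic) {k : ℕ}
    (hd : g.natDegree = f.natDegree + k) :
    lam f g = quadraticChar F ((-1) ^ (f.natDegree * k)) * resChar f (g %ₘ f) := by
  rw [lam, resChar, ← map_mul]
  congr 1
  conv_lhs => rw [hd, ← modByMonic_add_div g f]
  rw [resultant_add_mul_left _ _ _ _ _ ?_ le_rfl, resultant_add_left_deg _ _ _ _ _ ?_,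
    hf.coeff_natDegree, one_pow, mul_one]
  · exact natDegree_modByMonic_le g hf
  · rw [natDegree_divByMonic g hf]
    omega

theorem sum_resChar_eq_zero {f : F[X]} (hF : ringChar F ≠ 2) (hf : f.Monic)
    (hsq : Squarefree f) (hm : 1 ≤ f.natDegree) :
    ∑ r ∈ lows F f.natDegree, resChar f r = 0 := by
  obtain ⟨u, hu, hlu⟩ := exists_lam_eq_neg_one hF hf hsq hm
  rw [mem_monics] at hu
  have hcop : IsCoprime u f := by
    by_contra h
    have h0 : resultant u f u.natDegree f.natDegree = 0 :=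
      resultant_eq_zero_iff.2 ⟨Or.inl hu.1.ne_zero, h⟩
    rw [lam, h0, quadraticChar_zero] at hlu
    exact absurd hlu (by norm_num)
  have hmem : ∀ r ∈ lows F f.natDegree, u * r %ₘ f ∈ lows F f.natDegree := fun r _ => by
    rw [mem_lows, ← degree_eq_natDegree hf.ne_zero]
    exact degree_modByMonic_lt _ hf
  have hinj : Set.InjOn (fun r => u * r %ₘ f) (lows F f.natDegree) := by
    intro r hr r' hr' h
    rw [mem_coe, mem_lows, ← degree_eq_natDegree hf.ne_zero] at hr hr'
    have h1 : f ∣ u * (r - r') := by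
      rw [mul_sub, ← modByMonic_eq_zero_iff_dvd hf, sub_modByMonic, sub_eq_zero]
      exact h
    exact sub_eq_zero.1 (eq_zero_of_dvd_of_degree_lt (hcop.symm.dvd_of_dvd_mul_left h1)
      ((degree_sub_le _ _).trans_lt (max_lt hr hr')))
  have hneg : ∀ r ∈ lows F f.natDegree, resChar f (u * r %ₘ f) = -resChar f r := by
    intro r hr
    rw [mem_lows, ← degree_eq_natDegree hf.ne_zero] at hr
    have hg : (f + r).Monic := hf.add_of_left hr
    have hgd : (f + r).natDegree = f.natDegree :=
      natDegree_eq_of_degree_eq (degree_add_eq_left_of_degree_lt hr)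
    have h1 := lam_eq_resChar (k := 0) hf hgd
    have h2 := lam_eq_resChar (k := 2 * f.natDegree) (g := u * (f + r)) hf
      (by rw [hu.1.natDegree_mul hg, hu.2, hgd, add_comm])
    rw [lam_mul f hu.1 hg, hlu, h1, mul_zero, pow_zero, map_one, one_mul, neg_one_mul,
      pow_mul', ← pow_mul, mul_assoc, pow_mul, neg_one_sq, one_pow, map_one, one_mul,
      add_modByMonic, modByMonic_self hf, zero_add, (modByMonic_eq_self_iff hf).2 hr, mul_add,
      add_modByMonic, (modByMonic_eq_zero_iff_dvd hf).2 (dvd_mul_left f u), zero_add] at h2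
    exact h2.symm
  have key : ∑ r ∈ lows F f.natDegree, resChar f (u * r %ₘ f) =
      ∑ r ∈ lows F f.natDegree, resChar f r :=
    sum_nbij _ hmem hinj (surjOn_of_injOn_of_card_le _ hmem hinj le_rfl) fun _ _ => rfl
  rw [sum_congr rfl hneg, sum_neg_distrib] at key
  omega

/-- **Orthogonality.** -/
theorem lSum_eq_zero {f : F[X]} (hF : ringChar F ≠ 2) (hf : f.Monic) (hsq : Squarefree f)
    (hm : 1 ≤ f.natDegree) {d : ℕ} (hd : f.natDegree ≤ d) : lSum f d = 0 := by
  obtain ⟨k, rfl⟩ := Nat.exists_eq_add_of_le hd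
  have h : ∀ x ∈ lows F f.natDegree ×ˢ monics F k,
      (x.1 + f * x.2).Monic ∧ (x.1 + f * x.2).natDegree = f.natDegree + k ∧
        (x.1 + f * x.2) %ₘ f = x.1 ∧ (x.1 + f * x.2) /ₘ f = x.2 := by
    intro x hx
    rw [mem_product, mem_lows, mem_monics] at hx
    have h1 : x.1.degree < (f * x.2).degree := by
      rw [degree_mul, degree_eq_natDegree hf.ne_zero, degree_eq_natDegree hx.2.1.ne_zero,
        ← Nat.cast_add]
      exact hx.1.trans_le (Nat.cast_le.2 (Nat.le_add_right _ _))
    have h2 := div_modByMonic_unique x.2 x.1 hf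
      ⟨rfl, by rw [degree_eq_natDegree hf.ne_zero]; exact hx.1⟩
    refine ⟨?_, ?_, h2.2, h2.1⟩
    · rw [add_comm]
      exact (hf.mul hx.2.1).add_of_left h1
    · rw [natDegree_add_eq_right_of_degree_lt h1, hf.natDegree_mul hx.2.1, hx.2.2]
  have key : lSum f (f.natDegree + k) = ∑ x ∈ lows F f.natDegree ×ˢ monics F k,
      quadraticChar F ((-1) ^ (f.natDegree * k)) * resChar f x.1 := by
    refine (sum_bij' (fun x _ => x.1 + f * x.2) (fun g _ => (g %ₘ f, g /ₘ f)) ?_ ?_ ?_ ?_ ?_).symm
    · exact fun x hx => mem_monics.2 ⟨(h x hx).1, (h x hx).2.1⟩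
    · intro g hg
      rw [mem_monics] at hg
      rw [mem_product, mem_lows, mem_monics, natDegree_divByMonic g hf, hg.2,
        ← degree_eq_natDegree hf.ne_zero]
      refine ⟨degree_modByMonic_lt _ hf, ?_, Nat.add_sub_cancel_left _ _⟩
      rw [Monic, leadingCoeff_divByMonic_of_monic hf ?_, hg.1.leadingCoeff]
      rw [degree_eq_natDegree hf.ne_zero, degree_eq_natDegree hg.1.ne_zero, hg.2]
      exact Nat.cast_le.2 (Nat.le_add_right _ _)
    · exact fun x hx => Prod.ext (h x hx).2.2.1 (h x hx).2.2.2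
    · exact fun g _ => modByMonic_add_div g f
    · exact fun x hx => by rw [lam_eq_resChar hf (h x hx).2.1, (h x hx).2.2.1]
  rw [key, sum_product]
  simp only [sum_const, ← smul_sum, ← mul_sum, sum_resChar_eq_zero hF hf hsq hm, mul_zero,
    smul_zero]

end FA.HyperellipticWeil
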